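/-
S18 / (C-SEMI)-INST (helper80): the inequality

  `c̄_M + ḡ_M ≤ cuspCount M + g_M`

at a modular level `M`, for the generic fibre `F_M = modularFunctionFieldBar M` over `ℚ̄`
(instances `LevelFF12.algRatFM / algPolyFM`) and the special fibre
`F̄_M = modularFunctionFieldFullC k M` over `k = A / 𝔪_A` (instances `LevelAsm29.algRatC / algPolyC`),
from ONE frame `S : BridgeKernel15.Frame A ι` with the SAME hypotheses as
`LevelAsm29.nonempty_levelData_of_frame` (minus `GenusProp`, which it feeds).
No sorry.
-/
import Fermat.Agent.S18.CuspSemi80.Compare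
import Fermat.Agent.S18.LevelAsm29
import Fermat.Agent.S18.Char0Diff39

set_option autoImplicit false
set_option linter.unusedSectionVars false
set_option linter.unusedVariables false
set_option linter.style.haveILetI false
set_option synthInstance.maxHeartbeats 400000
set_option maxHeartbeats 1600000

open ModularCurve AlgebraicCurve HahnSeries IntermediateField Polynomial Module

noncomputable section

namespace Fermat.Agent.S18.CuspSemi80

open Fermat.Agent.S18.Spine33 Fermat.Agent.S18.Bridge28 Fermat.Agent.S18.BridgeKernel15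
open Fermat.Agent.S18.LevelInst29 Fermat.Agent.S18.GaussM29 Fermat.Agent.S18.LevelAsm29
open Fermat.Agent.S20 Fermat.Agent.S20.T1 Fermat.Agent.S24

variable (M : ℕ) [NeZero M] (A : ValuationSubring Kb) [IsAlgClosed (kA A)]
  {ι : Type*} [Fintype ι] (S : Frame A ι) (hF : S.F = modularFunctionFieldBar M)

/-- **(C-SEMI) at level `M`**, in the instance chains of `LevelFF12` (generic fibre) and
`LevelAsm29` (special fibre). -/
theorem cInf_add_dwGenus_le_of_frame
    (hj : S.j = ((jF M : FK M) : LaurentSeries Kb))
    (ht : S.t = jqModC (kA A))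
    (hM : (M : kA A) ≠ 0)
    (hrange : ∀ y : OF' S (modularFunctionFieldBar M) hF,
      rhoF' S (modularFunctionFieldBar M) hF y ∈ modularFunctionFieldFullC (kA A) M)
    (hdeg : LevelAsm29.DegProp M A)
    (hlattice : LevelAsm29.LatticeProp M A S hF) :
    letI := LevelFF12.algRatFM M
    letI := LevelFF12.algPolyFM M
    haveI := LevelFF12.towerK M
    haveI := LevelFF12.towerPoly M
    haveI := LevelFF12.finiteRat M
    haveI := LevelFF12.sepRat M
    letI := algRatC (kA A) M
    letI := algPolyC (kA A) M
    haveI := towerKC (kA A) M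
    haveI := towerPolyC (kA A) M
    haveI := finiteRatC (kA A) M hM
    haveI := sepRatC (kA A) M hM
    RH92.cInf (kA A) (FC (kA A) M) + DW63.dwGenus (kA A) (FC (kA A) M) ≤
      cuspCount M + DW63.dwGenus Kb (FK M) := by
  classical
  letI := LevelFF12.algRatFM M
  letI := LevelFF12.algPolyFM M
  haveI := LevelFF12.towerK M
  haveI := LevelFF12.towerPoly M
  haveI := LevelFF12.finiteRat M
  haveI := LevelFF12.sepRat M
  letI := algRatC (kA A) M
  letI := algPolyC (kA A) M
  haveI := towerKC (kA A) M
  haveI := towerPolyC (kA A) M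
  haveI := finiteRatC (kA A) M hM
  haveI := sepRatC (kA A) M hM
  have hx : ((algebraMap (RatFunc Kb) (FK M) RatFunc.X : FK M) : LaurentSeries Kb) = S.j := by
    rw [hj]
    exact congrArg (fun y : FK M => (y : LaurentSeries Kb)) (LevelFF12.xF_eq M)
  have hxb : ((algebraMap (RatFunc (kA A)) (FC (kA A) M) RatFunc.X : FC (kA A) M) :
      LaurentSeries (kA A)) = S.t := by
    rw [ht]; exact xMapsToJ (kA A) M
  have hG := isGauss S (modularFunctionFieldBar M) hF hx
  have hO := isOrtho S (modularFunctionFieldBar M) hF hx
  have hred := redCompat S (modularFunctionFieldBar M) hF hx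
    (modularFunctionFieldFullC (kA A) M) hrange hxb
  have hn : finrank (RatFunc Kb) (FK M) = finrank (RatFunc (kA A)) (FC (kA A) M) := by
    rw [LevelFF12.finrank_rat M]
    exact hdeg.symm
  have h := cInf_add_dwGenus_le_of_gauss (IsLocalRing.residue A) hG hO hred
    (LevelIntC73.ιL (modularFunctionFieldFullC (kA A) M).val)
    (fun y => rhoF' S (modularFunctionFieldBar M) hF y)
    (fun y => (coe_redTo S (modularFunctionFieldBar M) hF
      (modularFunctionFieldFullC (kA A) M) hrange y).symm)
    _ hlattice hn
  have hc : RH92.cInf Kb (FK M) = cuspCount M := by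
    rw [RH92.card_primesOverFinset_eq_natCard]
    exact Char0Diff39.card_heightOneSpectrum_Binf_FM M (LevelFF12.xF_eq M)
  rw [hc] at h
  exact h

end Fermat.Agent.S18.CuspSemi80
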