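/-
S18 / (I3) `LevelAsm29.GenusProp` from ONE frame (helper80): wiring of
`GenusEqMod8.dwGenus_FM_le` with (C-SEMI) := `CuspSemi80.cInf_add_dwGenus_le_of_frame`.
Remaining inputs: the base-level degree `hdeg0` and (C-BASE) `hCbase` at `M₀ ∈ {4, 9}`.
No sorry.
-/
import Fermat.Agent.S18.CuspSemi80.Inst
import Fermat.Agent.S18.GenusEqMod8

set_option autoImplicit false
set_option linter.unusedSectionVars false
set_option linter.unusedVariables false
set_option linter.style.haveILetI false
set_option synthInstance.maxHeartbeats 400000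
set_option maxHeartbeats 1600000

open ModularCurve AlgebraicCurve HahnSeries IntermediateField Polynomial Module

noncomputable section

namespace Fermat.Agent.S18.CuspSemi80

open Fermat.Agent.S18.Spine33 Fermat.Agent.S18.Bridge28 Fermat.Agent.S18.BridgeKernel15
open Fermat.Agent.S18.LevelInst29 Fermat.Agent.S18.GaussM29 Fermat.Agent.S18.LevelAsm29
open Fermat.Agent.S20 Fermat.Agent.S20.T1 Fermat.Agent.S24

variable (M₀ M : ℕ) [NeZero M₀] [NeZero M] (A : ValuationSubring Kb) [IsAlgClosed (kA A)]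
  {ι : Type*} [Fintype ι] (S : Frame A ι) (hF : S.F = modularFunctionFieldBar M)

theorem genusProp_of_frame
    (hj : S.j = ((jF M : FK M) : LaurentSeries Kb))
    (ht : S.t = jqModC (kA A))
    (hM : (M : kA A) ≠ 0)
    (hrange : ∀ y : OF' S (modularFunctionFieldBar M) hF,
      rhoF' S (modularFunctionFieldBar M) hF y ∈ modularFunctionFieldFullC (kA A) M)
    (hdeg : LevelAsm29.DegProp M A)
    (hlattice : LevelAsm29.LatticeProp M A S hF)
    (hM₀ : M₀ = 4 ∨ M₀ = 9) (hdvd : M₀ ∣ M)
    (hdeg0 : degOver (kA A) (GenusEqMod8.jC (kA A) M₀) = dedekindPsi M₀)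
    (hCbase : cuspCount M₀ ≤ (placesOverInfty (kA A) (GenusEqMod8.jC (kA A) M₀)).ncard) :
    LevelAsm29.GenusProp M A hM := by
  classical
  unfold LevelAsm29.GenusProp
  letI := LevelFF12.algRatFM M
  letI := LevelFF12.algPolyFM M
  haveI := LevelFF12.towerK M
  haveI := LevelFF12.towerPoly M
  haveI := LevelFF12.finiteRat M
  haveI := LevelFF12.sepRat M
  letI := algRatC (kA A) M
  letI := algPolyC (kA A) M
  haveI := towerKC (kA A) M
  haveI := towerPolyC (kA A) M
  haveI := finiteRatC (kA A) M hM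
  haveI := sepRatC (kA A) M hM
  have hxk : xF (kA A) (FC (kA A) M) = GenusEqMod8.jC (kA A) M :=
    Subtype.ext (xMapsToJ (kA A) M)
  exact GenusEqMod8.dwGenus_FM_le M₀ M (kA A) hM₀ hdvd (LevelFF12.xF_eq M) hxk hdeg0 hdeg hCbase
    (cInf_add_dwGenus_le_of_frame M A S hF hj ht hM hrange hdeg hlattice)

end Fermat.Agent.S18.CuspSemi80
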