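/-
S18 / (C-SEMI), single-fibre core (helper80; second seat of helper3's [CUSP-LITE]).

Setting: helper63's separable RatFunc setting `DW63` over an algebraically closed field `K` of ANY
characteristic.  `Binf K F` is the integral closure of `Oinf K` in `F`, a semilocal Dedekind domain
whose maximal ideals are the places over `x = ∞`.

* `radInf K F` : the intersection of the maximal ideals of `Binf K F`;
* `finrank_quotient_radInf` : `dim_K Binf / radInf = #{primes of Binf}` (CRT, residue fields `= K`);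
* `mem_radInf_iff_pow_mem` : `z ∈ radInf ↔ z ^ e ∈ (1/x) Binf` for `e ≥ [F : K(x)]`;
* `RR K F r` : `{f ∈ L(r (x)_∞) | f / x^r ∈ radInf}`;
* `finrank_LL_le` : `dim L(rE) ≤ dim RR r + #primes` (always);
* `finrank_RR_add_card`, `finrank_RR_eq` : equality for `r ≥ max d_i` (normal basis `(u, d)`).
No sorry.
-/
import Fermat.Agent.S18.DW63.Degree

set_option autoImplicit false
set_option linter.unusedSectionVars false

open Polynomial AlgebraicCurve IsDedekindDomain Module UniqueFactorizationMonoid
open scoped Classical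

noncomputable section

namespace Fermat.Agent.S18.CuspSemi80

open Fermat.Agent.S20.NormalBasis (Oinf mInf)
open Fermat.Agent.S20 Fermat.Agent.S20.T1
open Fermat.Agent.S20.LatticeDims (scaled latticeInter)
open Fermat.Agent.S18.DW63

variable (K F : Type*) [Field K] [IsAlgClosed K] [Field F] [Algebra K F] [Algebra (RatFunc K) F]
  [IsScalarTower K (RatFunc K) F] [Algebra K[X] F] [IsScalarTower K[X] (RatFunc K) F]
  [FiniteDimensional (RatFunc K) F] [Algebra.IsSeparable (RatFunc K) F]

/-- the image of the uniformiser `1/X` of `Oinf K` in `Binf K F` -/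
def piB : Binf K F := algebraMap (Oinf K) (Binf K F) T1Inf69.piInf

/-- The Jacobson radical of `Binf K F`: the intersection of its maximal ideals. -/
def radInf : Ideal (Binf K F) := ⨅ w : HeightOneSpectrum (Binf K F), w.asIdeal

theorem mem_radInf_iff (z : Binf K F) :
    z ∈ radInf K F ↔ ∀ w : HeightOneSpectrum (Binf K F), z ∈ w.asIdeal := by
  rw [radInf, Ideal.mem_iInf]

theorem piB_mem_radInf : piB K F ∈ radInf K F := by
  rw [mem_radInf_iff]
  exact fun w => piInf_mem K F w

theorem span_piB_le_radInf : Ideal.span {piB K F} ≤ radInf K F := by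
  rw [Ideal.span_singleton_le_iff_mem]
  exact piB_mem_radInf K F

/-! ### `Binf / radInf = K ^ c` -/

theorem pairwise_coprime :
    Pairwise (Function.onFun IsCoprime fun w : HeightOneSpectrum (Binf K F) => w.asIdeal) := by
  intro w w' h
  have := w.isMaximal
  have := w'.isMaximal
  exact Ideal.isCoprime_of_isMaximal fun h' => h (HeightOneSpectrum.ext h')

/-- Chinese remainder theorem, as a `K`-algebra equivalence. -/
def quotAlgEquiv : (Binf K F ⧸ radInf K F) ≃ₐ[K]
    (∀ w : HeightOneSpectrum (Binf K F), Binf K F ⧸ w.asIdeal) :=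
  AlgEquiv.ofRingEquiv (f := Ideal.quotientInfRingEquivPiQuotient _ (pairwise_coprime K F)) (by
    intro c
    rw [← Ideal.Quotient.mk_algebraMap]
    funext w
    rw [Pi.algebraMap_apply, ← Ideal.Quotient.mk_algebraMap]
    rfl)

/-- Chinese remainder theorem, as a `K`-linear equivalence. -/
def quotEquiv : (Binf K F ⧸ radInf K F) ≃ₗ[K]
    (∀ w : HeightOneSpectrum (Binf K F), Binf K F ⧸ w.asIdeal) :=
  (quotAlgEquiv K F).toLinearEquiv

theorem finrank_quotient_prime (w : HeightOneSpectrum (Binf K F)) :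
    finrank K (Binf K F ⧸ w.asIdeal) = 1 :=
  finrank_quotient_eq_one_of_surjective K w.asIdeal
    (residue_surjective_Binf K F w.asIdeal w.isMaximal)

instance free_quotient_prime (w : HeightOneSpectrum (Binf K F)) :
    Module.Free K (Binf K F ⧸ w.asIdeal) :=
  Module.Free.of_divisionRing K _

instance finite_quotient_prime (w : HeightOneSpectrum (Binf K F)) :
    Module.Finite K (Binf K F ⧸ w.asIdeal) :=
  Module.finite_of_finrank_pos (by rw [finrank_quotient_prime]; exact one_pos)

/-- **`dim_K Binf / radInf = #{places over ∞}`.** -/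
theorem finrank_quotient_radInf :
    finrank K (Binf K F ⧸ radInf K F) = Fintype.card (HeightOneSpectrum (Binf K F)) := by
  rw [(quotEquiv K F).finrank_eq, Module.finrank_pi_fintype]
  simp only [finrank_quotient_prime, Finset.sum_const, Finset.card_univ, smul_eq_mul, mul_one]

instance finite_quotient_radInf : Module.Finite K (Binf K F ⧸ radInf K F) :=
  Module.Finite.equiv (quotEquiv K F).symm

/-! ### the radical and powers -/

theorem span_piB_eq_map_mInf :
    Ideal.span {piB K F} = (mInf : Ideal (Oinf K)).map (algebraMap (Oinf K) (Binf K F)) :=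
  (T1Inf69.map_mInf (k := K) (F := F)).symm

theorem span_piB_ne_bot : Ideal.span {piB K F} ≠ ⊥ := by
  rw [Ne, Ideal.span_singleton_eq_bot]
  exact piInf_map_ne_zero K F

/-- every ramification index over `∞` is at most the degree -/
theorem count_le_finrank (w : HeightOneSpectrum (Binf K F)) :
    (normalizedFactors (Ideal.span {piB K F})).count w.asIdeal ≤ finrank (RatFunc K) F := by
  rw [span_piB_eq_map_mInf, ← sum_count_map_mInf K F]
  exact Finset.single_le_sum (f := fun w : HeightOneSpectrum (Binf K F) =>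
    (normalizedFactors ((mInf : Ideal (Oinf K)).map (algebraMap (Oinf K) (Binf K F)))).count
      w.asIdeal) (fun _ _ => Nat.zero_le _) (Finset.mem_univ w)

/-- **`z ∈ radInf ↔ z ^ e ∈ (1/x) Binf`** for `e ≥ [F : K(x)]`. -/
theorem mem_radInf_iff_pow_mem {e : ℕ} (he : finrank (RatFunc K) F ≤ e) (z : Binf K F) :
    z ∈ radInf K F ↔ z ^ e ∈ Ideal.span {piB K F} := by
  have hn : 0 < finrank (RatFunc K) F := finrank_pos
  have he0 : e ≠ 0 := by omega
  constructor
  · intro hz
    rcases eq_or_ne z 0 with rfl | hz0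
    · rw [zero_pow he0]; exact Ideal.zero_mem _
    rw [mem_radInf_iff] at hz
    have hJ : Ideal.span {z} ≠ (⊥ : Ideal (Binf K F)) := by
      rwa [Ne, Ideal.span_singleton_eq_bot]
    have hJe : Ideal.span {z} ^ e ≠ (⊥ : Ideal (Binf K F)) := pow_ne_zero e hJ
    rw [← Ideal.dvd_span_singleton, ← Ideal.span_singleton_pow,
      dvd_iff_normalizedFactors_le_normalizedFactors (span_piB_ne_bot K F) hJe,
      normalizedFactors_pow, Multiset.le_iff_count]
    intro P
    by_cases hP : P ∈ normalizedFactors (Ideal.span {piB K F})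
    · have hPprime : P.IsPrime := ((Ideal.mem_normalizedFactors_iff (span_piB_ne_bot K F)).mp hP).1
      have hP0 : P ≠ ⊥ := by
        rintro rfl
        have := ((Ideal.mem_normalizedFactors_iff (span_piB_ne_bot K F)).mp hP).2
        exact span_piB_ne_bot K F (le_bot_iff.mp this)
      set w : HeightOneSpectrum (Binf K F) := ⟨P, hPprime, hP0⟩ with hw
      have h1 : (normalizedFactors (Ideal.span {piB K F})).count P ≤ finrank (RatFunc K) F :=
        count_le_finrank K F w
      have h2 : P ∈ normalizedFactors (Ideal.span {z}) := by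
        rw [Ideal.mem_normalizedFactors_iff hJ]
        refine ⟨hPprime, ?_⟩
        rw [Ideal.span_singleton_le_iff_mem]
        exact hz w
      have h3 : 1 ≤ (normalizedFactors (Ideal.span {z})).count P :=
        Multiset.one_le_count_iff_mem.mpr h2
      rw [Multiset.count_nsmul]
      calc (normalizedFactors (Ideal.span {piB K F})).count P ≤ finrank (RatFunc K) F := h1
        _ ≤ e := he
        _ = e * 1 := (mul_one e).symm
        _ ≤ e * (normalizedFactors (Ideal.span {z})).count P := Nat.mul_le_mul_left e h3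
    · rw [Multiset.count_eq_zero_of_notMem hP]
      exact Nat.zero_le _
  · intro hz
    rw [mem_radInf_iff]
    intro w
    have h1 : z ^ e ∈ w.asIdeal := by
      have := span_piB_le_radInf K F hz
      rw [mem_radInf_iff] at this
      exact this w
    exact w.isPrime.mem_of_pow_mem e h1

/-! ### the spaces `LL r = L(r (x)_∞)` and `RR r` -/

/-- `L(r (x)_∞) = Bfin ∩ x^r Binf`. -/
def LL (r : ℤ) : Submodule K F := riemannRochSpace (r • poleDiv K F)

theorem mem_LL_iff (r : ℤ) (f : F) :
    f ∈ LL K F r ↔ (f ∈ Bfin K F ∧ ((RatFunc.X : RatFunc K) ^ (-r)) • f ∈ Binf K F) :=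
  mem_riemannRochSpace_smul_poleDiv_iff K F r f

instance finite_LL (r : ℤ) : Module.Finite K (LL K F r) :=
  finite_riemannRochSpace_smul_poleDiv (K := K) (F := F) r

/-- `f ↦ f / x^r`, from `L(r (x)_∞)` to `Binf`. -/
def scaleInf (r : ℤ) : LL K F r →ₗ[K] Binf K F where
  toFun f := ⟨((RatFunc.X : RatFunc K) ^ (-r)) • (f : F), ((mem_LL_iff K F r f).mp f.2).2⟩
  map_add' f g := Subtype.ext (by
    show ((RatFunc.X : RatFunc K) ^ (-r)) • ((f : F) + (g : F)) = _
    rw [smul_add]; rfl)
  map_smul' c f := Subtype.ext (by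
    show ((RatFunc.X : RatFunc K) ^ (-r)) • (c • (f : F)) = c • (((RatFunc.X : RatFunc K) ^ (-r)) •
      (f : F))
    rw [smul_comm])

theorem coe_scaleInf (r : ℤ) (f : LL K F r) :
    ((scaleInf K F r f : Binf K F) : F) = ((RatFunc.X : RatFunc K) ^ (-r)) • (f : F) := rfl

/-- `f ↦ (f / x^r mod radInf)`. -/
def toQuot (r : ℤ) : LL K F r →ₗ[K] (Binf K F ⧸ radInf K F) :=
  (Ideal.Quotient.mkₐ K (radInf K F)).toLinearMap ∘ₗ scaleInf K F r

theorem toQuot_apply (r : ℤ) (f : LL K F r) :
    toQuot K F r f = Ideal.Quotient.mk (radInf K F) (scaleInf K F r f) := rfl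

/-- `RR r = {f ∈ L(r (x)_∞) | f / x^r ∈ radInf}` (= `L(rE - E_red)`). -/
def RR (r : ℤ) : Submodule K F := (LinearMap.ker (toQuot K F r)).map (LL K F r).subtype

theorem mem_RR_iff (r : ℤ) (f : F) :
    f ∈ RR K F r ↔ f ∈ Bfin K F ∧
      ∃ h : ((RatFunc.X : RatFunc K) ^ (-r)) • f ∈ Binf K F, (⟨_, h⟩ : Binf K F) ∈ radInf K F := by
  rw [RR, Submodule.mem_map]
  constructor
  · rintro ⟨g, hg, rfl⟩
    have hg2 := (mem_LL_iff K F r g).mp g.2
    refine ⟨hg2.1, hg2.2, ?_⟩
    rw [LinearMap.mem_ker, toQuot_apply, Ideal.Quotient.eq_zero_iff_mem] at hg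
    exact hg
  · rintro ⟨h1, h2, h3⟩
    refine ⟨⟨f, (mem_LL_iff K F r f).mpr ⟨h1, h2⟩⟩, ?_, rfl⟩
    rw [LinearMap.mem_ker, toQuot_apply, Ideal.Quotient.eq_zero_iff_mem]
    exact h3

theorem RR_le_LL (r : ℤ) : RR K F r ≤ LL K F r := by
  rw [RR]
  exact Submodule.map_subtype_le _ _

theorem finrank_RR (r : ℤ) : finrank K (RR K F r) = finrank K (LinearMap.ker (toQuot K F r)) := by
  rw [RR, Submodule.finrank_map_subtype_eq]

instance finite_RR (r : ℤ) : Module.Finite K (RR K F r) :=
  Module.Finite.of_injective (Submodule.inclusion (RR_le_LL K F r))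
    (Submodule.inclusion_injective _)

/-- **`dim L(rE) ≤ dim RR r + #{places over ∞}`**, for every `r`. -/
theorem finrank_LL_le (r : ℤ) :
    finrank K (LL K F r) ≤
      finrank K (RR K F r) + Fintype.card (HeightOneSpectrum (Binf K F)) := by
  rw [finrank_RR, ← LinearMap.finrank_range_add_finrank_ker (toQuot K F r),
    ← finrank_quotient_radInf K F, add_comm]
  exact Nat.add_le_add_left (Submodule.finrank_le _) _

/-! ### surjectivity of `toQuot` for `r ≥ max d_i` -/

variable {K F}

theorem residue_decomp (a : Oinf K) :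
    ∃ (c : K) (a' : Oinf K), a = algebraMap K (Oinf K) c + T1Inf69.piInf * a' := by
  obtain ⟨c, hc⟩ := RamCountT1.surjective_algebraMap_residue_Oinf K
    (Ideal.Quotient.mk (IsLocalRing.maximalIdeal (Oinf K)) a)
  rw [IsScalarTower.algebraMap_apply K (Oinf K) (Oinf K ⧸ IsLocalRing.maximalIdeal (Oinf K)),
    Ideal.Quotient.algebraMap_eq, Ideal.Quotient.eq, ← T1Inf69.mInf_eq_maximalIdeal,
    T1Inf69.mInf_eq_span, Ideal.mem_span_singleton'] at hc
  obtain ⟨a', ha'⟩ := hc
  exact ⟨c, -a', by linear_combination ha'⟩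

theorem X_zpow_smul_mem_Bfin {y : F} (hy : y ∈ Bfin K F) {k : ℤ} (hk : 0 ≤ k) :
    ((RatFunc.X : RatFunc K) ^ k) • y ∈ Bfin K F := by
  obtain ⟨n, rfl⟩ := Int.eq_ofNat_of_zero_le hk
  have h1 : ((RatFunc.X : RatFunc K) ^ (n : ℤ)) = algebraMap K[X] (RatFunc K) (X ^ n) := by
    rw [zpow_natCast, map_pow, RatFunc.algebraMap_X]
  rw [h1, algebraMap_smul]
  exact Subalgebra.smul_mem _ hy _

theorem const_smul_mem_Bfin {y : F} (hy : y ∈ Bfin K F) (c : K) : c • y ∈ Bfin K F := by
  rw [← algebraMap_smul K[X] c y]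
  exact Subalgebra.smul_mem _ hy _

theorem const_smul_mem_Binf {y : F} (hy : y ∈ Binf K F) (c : K) : c • y ∈ Binf K F := by
  rw [← algebraMap_smul (Oinf K) c y]
  exact Subalgebra.smul_mem _ hy _

/-- For a normal basis `(u, d)` and `r ≥ max d_i`, the map `L(rE) → Binf / radInf` is onto. -/
theorem toQuot_surjective {ι : Type*} [Fintype ι] (u : Basis ι (RatFunc K) F) (d : ι → ℤ)
    (hu : Submodule.span K[X] (Set.range u) = Subalgebra.toSubmodule (Bfin K F))
    (hd : Submodule.span (Oinf K) (Set.range (scaled u d)) = Subalgebra.toSubmodule (Binf K F))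
    (r : ℤ) (hr : ∀ i, d i ≤ r) : Function.Surjective (toQuot K F r) := by
  intro y
  obtain ⟨b, rfl⟩ := Ideal.Quotient.mk_surjective y
  have hs : ∀ i, scaled u d i ∈ Binf K F := fun i => by
    have h : scaled u d i ∈ Submodule.span (Oinf K) (Set.range (scaled u d)) :=
      Submodule.subset_span ⟨i, rfl⟩
    rw [hd] at h; exact h
  have hub : ∀ i, u i ∈ Bfin K F := fun i => by
    have h : u i ∈ Submodule.span K[X] (Set.range u) := Submodule.subset_span ⟨i, rfl⟩
    rw [hu] at h; exact h
  have hb : (b : F) ∈ Submodule.span (Oinf K) (Set.range (scaled u d)) := by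
    rw [hd]; exact b.2
  obtain ⟨a, ha⟩ := (Submodule.mem_span_range_iff_exists_fun (Oinf K)).mp hb
  choose c a' hca using fun i => residue_decomp (K := K) (a i)
  set f : F := ∑ i, c i • (((RatFunc.X : RatFunc K) ^ (r - d i)) • u i) with hf
  have hfB : f ∈ Bfin K F :=
    Subalgebra.sum_mem _ fun i _ =>
      const_smul_mem_Bfin (X_zpow_smul_mem_Bfin (hub i) (by have := hr i; omega)) (c i)
  have hXf : ((RatFunc.X : RatFunc K) ^ (-r)) • f = ∑ i, c i • scaled u d i := by
    rw [hf, Finset.smul_sum]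
    refine Finset.sum_congr rfl fun i _ => ?_
    rw [smul_comm, smul_smul, ← zpow_add₀ RatFunc.X_ne_zero, LatticeDims.scaled_apply,
      show -r + (r - d i) = -d i by ring]
  have hfInf : ((RatFunc.X : RatFunc K) ^ (-r)) • f ∈ Binf K F := by
    rw [hXf]
    exact Subalgebra.sum_mem _ fun i _ => const_smul_mem_Binf (hs i) (c i)
  refine ⟨⟨f, (mem_LL_iff K F r f).mpr ⟨hfB, hfInf⟩⟩, ?_⟩
  rw [toQuot_apply, Ideal.Quotient.eq]
  have key : b - scaleInf K F r ⟨f, (mem_LL_iff K F r f).mpr ⟨hfB, hfInf⟩⟩ =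
      piB K F * ∑ i, a' i • (⟨scaled u d i, hs i⟩ : Binf K F) := by
    apply Subtype.ext
    rw [Subalgebra.coe_sub, coe_scaleInf, Subalgebra.coe_mul]
    show (b : F) - ((RatFunc.X : RatFunc K) ^ (-r)) • f = _
    rw [hXf, ← ha, ← Finset.sum_sub_distrib]
    have hcoe : ((∑ i, a' i • (⟨scaled u d i, hs i⟩ : Binf K F) : Binf K F) : F) =
        ∑ i, a' i • scaled u d i := by
      rw [AddSubmonoidClass.coe_finsetSum]
      rfl
    rw [hcoe, Finset.mul_sum]
    refine Finset.sum_congr rfl fun i _ => ?_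
    rw [hca i, add_smul, algebraMap_smul, add_sub_cancel_left, mul_smul, Algebra.smul_def]
    rfl
  have hmem : b - scaleInf K F r ⟨f, (mem_LL_iff K F r f).mpr ⟨hfB, hfInf⟩⟩ ∈ radInf K F := by
    rw [key]
    exact Ideal.mul_mem_right _ _ (piB_mem_radInf K F)
  have := neg_mem hmem
  rwa [neg_sub] at this

/-- **`dim RR r + #{places over ∞} = dim L(rE)`** for `r ≥ max d_i`. -/
theorem finrank_RR_add_card {ι : Type*} [Fintype ι] (u : Basis ι (RatFunc K) F) (d : ι → ℤ)
    (hu : Submodule.span K[X] (Set.range u) = Subalgebra.toSubmodule (Bfin K F))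
    (hd : Submodule.span (Oinf K) (Set.range (scaled u d)) = Subalgebra.toSubmodule (Binf K F))
    (r : ℤ) (hr : ∀ i, d i ≤ r) :
    finrank K (RR K F r) + Fintype.card (HeightOneSpectrum (Binf K F)) = finrank K (LL K F r) := by
  rw [finrank_RR, ← LinearMap.finrank_range_add_finrank_ker (toQuot K F r),
    LinearMap.range_eq_top.mpr (toQuot_surjective u d hu hd r hr), finrank_top,
    finrank_quotient_radInf K F, add_comm]

/-- the same in closed form: `dim RR r = n (r + 1) - Σ d_i - c`. -/
theorem finrank_RR_eq {ι : Type*} [Fintype ι] (u : Basis ι (RatFunc K) F) (d : ι → ℤ)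
    (hu : Submodule.span K[X] (Set.range u) = Subalgebra.toSubmodule (Bfin K F))
    (hd : Submodule.span (Oinf K) (Set.range (scaled u d)) = Subalgebra.toSubmodule (Binf K F))
    (r : ℤ) (hr : ∀ i, d i ≤ r) :
    (finrank K (RR K F r) : ℤ) = (Fintype.card ι : ℤ) * (r + 1) - ∑ i, d i -
      Fintype.card (HeightOneSpectrum (Binf K F)) := by
  have h1 := finrank_RR_add_card u d hu hd r hr
  have h2 := finrank_riemannRochSpace_of_le u d hu hd r (fun i => by have := hr i; omega)
  have h3 : (finrank K (LL K F r) : ℤ) = (Fintype.card ι : ℤ) * (r + 1) - ∑ i, d i := h2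
  have h4 : ((finrank K (RR K F r) : ℤ)) + Fintype.card (HeightOneSpectrum (Binf K F)) =
      finrank K (LL K F r) := by exact_mod_cast h1
  linarith

end Fermat.Agent.S18.CuspSemi80
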