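/-
S18 / (C-SEMI), two-fibre comparison (helper80; second seat of helper3's [CUSP-LITE]).

Two separable RatFunc settings `(K, F)` (generic fibre) and `(k, Fb)` (special fibre) of the SAME
degree, a valuation subring `O` of `F` with a reduction homomorphism `red : O →+* Fb`, such that

* `IntTransport K k red` : integrality is transported by `red`
  (= the conclusion of `GaussInt95.red_isIntegral`), and
* `LatticeProp K k red`  : every finite dimensional `K`-subspace `V` of `F` has a `K`-basis in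
  `V ∩ O` whose reductions are `k`-linearly independent (the LATTICE LEMMA).

Then (`cInf_add_dwGenus_le`)

  `#{places of Fb over ∞} + genus Fb ≤ #{places of F over ∞} + genus F`,

which is the inequality (C-SEMI) `c̄_M + ḡ_M ≤ c_M + g_M`.

Proof: `RR r = L(r E - E_red)` has dimension `n (r + 1) - Σ d_i - c = n r + 1 - g - c` for `r ≫ 0`
(`Rad.lean`), and `red` maps `RR_K r ∩ O` into `RR_k r`: integrality gives `L(rE) ∩ O → L̄(rĒ)`, and
for the radical condition use `z ∈ rad ↔ z ^ n ∈ (1/x) Binf` on both fibres.  The lattice lemma then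
gives `dim RR_K r ≤ dim RR_k r`.
No sorry.
-/
import Fermat.Agent.S18.CuspSemi80.Rad
import Fermat.Agent.S18.RH92.RatFunc
import Fermat.Agent.S18.GaussInt95
import Fermat.Agent.S18.DW63.Genus

set_option autoImplicit false
set_option linter.unusedSectionVars false

open Polynomial AlgebraicCurve IsDedekindDomain Module
open scoped Classical

noncomputable section

namespace Fermat.Agent.S18.CuspSemi80

open Fermat.Agent.S20.NormalBasis (Oinf mInf)
open Fermat.Agent.S20 Fermat.Agent.S20.T1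
open Fermat.Agent.S20.LatticeDims (scaled latticeInter)
open Fermat.Agent.S18.DW63

/-! ### coordinates of `piB` and of the scaling -/

section Coe

variable (K F : Type*) [Field K] [IsAlgClosed K] [Field F] [Algebra K F] [Algebra (RatFunc K) F]
  [IsScalarTower K (RatFunc K) F] [Algebra K[X] F] [IsScalarTower K[X] (RatFunc K) F]
  [FiniteDimensional (RatFunc K) F] [Algebra.IsSeparable (RatFunc K) F]

theorem xF_ne_zero : xF K F ≠ 0 := by
  rw [xF, Ne, map_eq_zero]
  exact RatFunc.X_ne_zero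

theorem coe_piB : ((piB K F : Binf K F) : F) = (xF K F)⁻¹ := by
  show algebraMap (Oinf K) F T1Inf69.piInf = _
  rw [T1Inf69.algebraMap_Oinf_eq, T1Inf69.coe_piInf, map_inv₀]
  rfl

theorem X_zpow_neg_smul (r : ℕ) (y : F) :
    ((RatFunc.X : RatFunc K) ^ (-(r : ℤ))) • y = y / xF K F ^ r := by
  rw [Algebra.smul_def, map_zpow₀, zpow_neg, zpow_natCast, div_eq_inv_mul]
  rfl

end Coe

section Compare

variable (K : Type*) {F : Type*} [Field K] [IsAlgClosed K] [Field F] [Algebra K F]
  [Algebra (RatFunc K) F]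
  [IsScalarTower K (RatFunc K) F] [Algebra K[X] F] [IsScalarTower K[X] (RatFunc K) F]
  [FiniteDimensional (RatFunc K) F] [Algebra.IsSeparable (RatFunc K) F]
variable (k : Type*) {Fb : Type*} [Field k] [IsAlgClosed k] [Field Fb] [Algebra k Fb]
  [Algebra (RatFunc k) Fb]
  [IsScalarTower k (RatFunc k) Fb] [Algebra k[X] Fb] [IsScalarTower k[X] (RatFunc k) Fb]
  [FiniteDimensional (RatFunc k) Fb] [Algebra.IsSeparable (RatFunc k) Fb]
variable {O : ValuationSubring F} (red : O →+* Fb)

/-- Integrality is transported by the reduction `red`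
(this is the conclusion of `GaussInt95.red_isIntegral`). -/
def IntTransport : Prop :=
  ∀ (z : F) (hzO : z ∈ O), IsIntegral K[X] z → ∀ s : ℕ, IsIntegral (Oinf K) (z / xF K F ^ s) →
    IsIntegral k[X] (red ⟨z, hzO⟩) ∧ IsIntegral (Oinf k) (red ⟨z, hzO⟩ / xF k Fb ^ s)

/-- The LATTICE LEMMA: every finite dimensional `K`-subspace of `F` has a basis in `O` with
`k`-linearly independent reductions. -/
def LatticeProp : Prop :=
  ∀ V : Submodule K F, Module.Finite K V →
    ∃ (m : ℕ) (e : Fin m → F) (he : ∀ i, e i ∈ O), m = finrank K V ∧ (∀ i, e i ∈ V) ∧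
      LinearIndependent k (fun i => red ⟨e i, he i⟩)

variable {K k red}

/-- **`red` maps `RR_K r ∩ O` into `RR_k r`.** -/
theorem red_mem_RR (hint : IntTransport K k red)
    (hdeg : finrank (RatFunc k) Fb ≤ finrank (RatFunc K) F)
    {r : ℕ} (hr : 1 ≤ r) {y : F} (hy : y ∈ RR K F (r : ℤ)) (hyO : y ∈ O) :
    red ⟨y, hyO⟩ ∈ RR k Fb (r : ℤ) := by
  obtain ⟨hy1, hy2, hy3⟩ := (mem_RR_iff K F r y).mp hy
  set n := finrank (RatFunc K) F with hn
  have hn0 : 0 < n := finrank_pos
  have hx0 := xF_ne_zero K F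
  have hxb0 := xF_ne_zero k Fb
  -- first transport: `L(rE) ∩ O → L̄(rĒ)`
  obtain ⟨t1, t2⟩ := hint y hyO hy1 r (by rw [← X_zpow_neg_smul]; exact hy2)
  have t2' : ((RatFunc.X : RatFunc k) ^ (-(r : ℤ))) • red ⟨y, hyO⟩ ∈ Binf k Fb := by
    rw [X_zpow_neg_smul]; exact t2
  rw [mem_RR_iff]
  refine ⟨t1, t2', ?_⟩
  -- the radical condition, by the power trick
  have hpow := (mem_radInf_iff_pow_mem K F le_rfl ⟨_, hy2⟩).mp hy3
  rw [Ideal.mem_span_singleton'] at hpow
  obtain ⟨w, hw⟩ := hpow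
  have hrn : 1 ≤ r * n := Nat.one_le_iff_ne_zero.mpr (Nat.mul_ne_zero (by omega) (by omega))
  have hwF : (w : F) = y ^ n / xF K F ^ (r * n - 1) := by
    have h1 := congrArg (fun z : Binf K F => (z : F)) hw
    simp only [Subalgebra.coe_mul, Subalgebra.coe_pow, coe_piB] at h1
    rw [X_zpow_neg_smul] at h1
    have h2 : xF K F ^ (r * n) = xF K F ^ (r * n - 1) * xF K F := by
      rw [← pow_succ, Nat.sub_add_cancel hrn]
    rw [div_pow, ← pow_mul, h2] at h1
    field_simp at h1 ⊢
    linear_combination h1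
  have hwI : IsIntegral (Oinf K) (y ^ n / xF K F ^ (r * n - 1)) := by
    rw [← hwF]; exact w.2
  obtain ⟨-, s2⟩ := hint (y ^ n) (pow_mem hyO n) (hy1.pow n) (r * n - 1) hwI
  have hredpow : red ⟨y ^ n, pow_mem hyO n⟩ = red ⟨y, hyO⟩ ^ n := by
    rw [← map_pow]; rfl
  rw [hredpow] at s2
  rw [mem_radInf_iff_pow_mem k Fb hdeg, Ideal.mem_span_singleton']
  refine ⟨⟨_, s2⟩, ?_⟩
  apply Subtype.ext
  simp only [Subalgebra.coe_mul, Subalgebra.coe_pow, coe_piB]
  rw [X_zpow_neg_smul]
  have h2 : xF k Fb ^ (r * n) = xF k Fb ^ (r * n - 1) * xF k Fb := by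
    rw [← pow_succ, Nat.sub_add_cancel hrn]
  rw [div_pow, ← pow_mul, h2]
  field_simp

/-- **`dim_K RR_K r ≤ dim_k RR_k r`** for `r ≥ 1`. -/
theorem finrank_RR_le (hint : IntTransport K k red) (hlat : LatticeProp K k red)
    (hdeg : finrank (RatFunc k) Fb ≤ finrank (RatFunc K) F) {r : ℕ} (hr : 1 ≤ r) :
    finrank K (RR K F (r : ℤ)) ≤ finrank k (RR k Fb (r : ℤ)) := by
  obtain ⟨m, e, he, hm, heV, hind⟩ := hlat (RR K F (r : ℤ)) inferInstance
  rw [← hm]
  have hmem : ∀ i, red ⟨e i, he i⟩ ∈ RR k Fb (r : ℤ) := fun i =>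
    red_mem_RR hint hdeg hr (heV i) (he i)
  have hind' : LinearIndependent k (fun i => (⟨red ⟨e i, he i⟩, hmem i⟩ : RR k Fb (r : ℤ))) := by
    apply LinearIndependent.of_comp (RR k Fb (r : ℤ)).subtype
    exact hind
  simpa using hind'.fintype_card_le_finrank

/-- **(C-SEMI)**, integer form: `c̄ + ḡ ≤ c + g`. -/
theorem card_add_dwGenus_le (hint : IntTransport K k red) (hlat : LatticeProp K k red)
    (hdeg : finrank (RatFunc K) F = finrank (RatFunc k) Fb) :
    (Fintype.card (HeightOneSpectrum (Binf k Fb)) : ℤ) + dwGenus k Fb ≤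
      Fintype.card (HeightOneSpectrum (Binf K F)) + dwGenus K F := by
  obtain ⟨u, d, hu, hd⟩ := exists_normal_basis K F
  obtain ⟨ub, db, hub, hdb⟩ := exists_normal_basis k Fb
  -- a common large `r`
  obtain ⟨r, hr1, hrd, hrdb⟩ : ∃ r : ℕ, 1 ≤ r ∧ (∀ i, d i ≤ (r : ℤ)) ∧ (∀ i, db i ≤ (r : ℤ)) := by
    refine ⟨1 + (Finset.univ.sup fun i => (d i).toNat) + (Finset.univ.sup fun i => (db i).toNat),
      by omega, fun i => ?_, fun i => ?_⟩
    · have h := Finset.le_sup (f := fun i => (d i).toNat) (Finset.mem_univ i)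
      have := Int.self_le_toNat (d i)
      push_cast
      have h' : ((d i).toNat : ℤ) ≤ ((Finset.univ.sup fun i => (d i).toNat : ℕ) : ℤ) := by
        exact_mod_cast h
      omega
    · have h := Finset.le_sup (f := fun i => (db i).toNat) (Finset.mem_univ i)
      have := Int.self_le_toNat (db i)
      push_cast
      have h' : ((db i).toNat : ℤ) ≤ ((Finset.univ.sup fun i => (db i).toNat : ℕ) : ℤ) := by
        exact_mod_cast h
      omega
  have h1 := finrank_RR_eq u d hu hd (r : ℤ) hrd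
  have h2 := finrank_RR_eq ub db hub hdb (r : ℤ) hrdb
  have h3 : (finrank K (RR K F (r : ℤ)) : ℤ) ≤ finrank k (RR k Fb (r : ℤ)) := by
    exact_mod_cast finrank_RR_le hint hlat hdeg.ge hr1
  have g1 := dwGenus_eq u d hu hd
  have g2 := dwGenus_eq ub db hub hdb
  rw [Fintype.card_fin] at h1 h2
  have hdeg' : (finrank (RatFunc K) F : ℤ) = finrank (RatFunc k) Fb := by exact_mod_cast hdeg
  rw [h1, h2, ← hdeg'] at h3
  linarith

/-- **(C-SEMI)** in terms of `RH92.cInf` (natural numbers):
`c̄ + ḡ ≤ c + g`. -/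
theorem cInf_add_dwGenus_le (hint : IntTransport K k red) (hlat : LatticeProp K k red)
    (hdeg : finrank (RatFunc K) F = finrank (RatFunc k) Fb) :
    RH92.cInf k Fb + dwGenus k Fb ≤ RH92.cInf K F + dwGenus K F := by
  have h := card_add_dwGenus_le hint hlat hdeg
  rw [RH92.card_primesOverFinset_eq_natCard, RH92.card_primesOverFinset_eq_natCard,
    Nat.card_eq_fintype_card, Nat.card_eq_fintype_card]
  exact_mod_cast h

/-! ### adapters to the shapes produced by the other packages -/

/-- `IntTransport` from the hypotheses of `GaussInt95.red_isIntegral`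
(`GaussM29.isGauss / isOrtho / redCompat`). -/
theorem intTransport_of_gauss {A : ValuationSubring K} (π : A →+* k)
    (hG : GaussInt95.IsGauss A O) {ι : Type*} [Fintype ι]
    {bas : Basis ι (RatFunc K) F} (hb : GaussInt95.IsOrtho O bas)
    (hred : GaussInt95.RedCompat π red) : IntTransport K k red :=
  fun _ hzO hz1 s hz2 => GaussInt95.red_isIntegral π red hG hb hred hzO hz1 s hz2

/-- `LatticeProp` from a lattice statement in the shape of `Level33.LevelData.lattice`:
`ρ : O → L` is the residue map with values in a bigger `k`-module `L` (e.g. `k((q))`), factoring as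
`ρ = ι ∘ red` through a `k`-linear map `ι : Fb → L`; `Q` is any extra clause. -/
theorem latticeProp_of_shape {L : Type*} [AddCommGroup L] [Module k L] (ι : Fb →ₗ[k] L)
    (ρ : O → L) (hρ : ∀ y, ρ y = ι (red y))
    (Q : Submodule K F → ∀ m : ℕ, (Fin m → F) → Prop)
    (h : ∀ V : Submodule K F, Module.Finite K V →
      ∃ (m : ℕ) (e : Fin m → F) (he : ∀ i, e i ∈ O), m = finrank K V ∧ (∀ i, e i ∈ V) ∧
        LinearIndependent k (fun i => ρ ⟨e i, he i⟩) ∧ Q V m e) :
    LatticeProp K k red := by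
  intro V hV
  obtain ⟨m, e, he, hm, heV, hind, -⟩ := h V hV
  refine ⟨m, e, he, hm, heV, ?_⟩
  have h1 : (fun i => ρ ⟨e i, he i⟩) = ι ∘ fun i => red ⟨e i, he i⟩ :=
    funext fun i => hρ _
  rw [h1] at hind
  exact LinearIndependent.of_comp ι hind

/-- **(C-SEMI)** from the Gauss data and a `LevelData`-shaped lattice lemma. -/
theorem cInf_add_dwGenus_le_of_gauss {A : ValuationSubring K} (π : A →+* k)
    (hG : GaussInt95.IsGauss A O) {ι : Type*} [Fintype ι]
    {bas : Basis ι (RatFunc K) F} (hb : GaussInt95.IsOrtho O bas)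
    (hred : GaussInt95.RedCompat π red)
    {L : Type*} [AddCommGroup L] [Module k L] (ιL : Fb →ₗ[k] L)
    (ρ : O → L) (hρ : ∀ y, ρ y = ιL (red y))
    (Q : Submodule K F → ∀ m : ℕ, (Fin m → F) → Prop)
    (hlat : ∀ V : Submodule K F, Module.Finite K V →
      ∃ (m : ℕ) (e : Fin m → F) (he : ∀ i, e i ∈ O), m = finrank K V ∧ (∀ i, e i ∈ V) ∧
        LinearIndependent k (fun i => ρ ⟨e i, he i⟩) ∧ Q V m e)
    (hdeg : finrank (RatFunc K) F = finrank (RatFunc k) Fb) :
    RH92.cInf k Fb + dwGenus k Fb ≤ RH92.cInf K F + dwGenus K F :=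
  cInf_add_dwGenus_le (intTransport_of_gauss π hG hb hred)
    (latticeProp_of_shape ιL ρ hρ Q hlat) hdeg

end Compare

end Fermat.Agent.S18.CuspSemi80
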