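/-
S18 / last mile (helper80; hot spare of the LD-ASSEMBLY wiring): the two remaining Props of
`LevelFinal29.nonempty_levelData_of_liesOver`,

* `latticeM`  : `LevelFinal29.LatticeM A M hMk`  (from `LatticeInst56.lattice_field`),
* `genusProp` : `LevelAsm29.GenusProp M A hMk`    (from `CuspSemi80.genusProp_of_frame`,
  `DegreeBar14.degOver_eq`, `CuspBaseFinal81.cuspCount_le`),

hence `nonempty_levelData` and `level : Spine33.LevelStatement`.
No sorry.
-/
import Fermat.Agent.S18.CuspSemi80.GenusProp
import Fermat.Agent.S18.LevelFinal29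
import Fermat.Agent.S18.CuspBaseFinal81
import Fermat.Agent.S18.LatticeInst56

set_option autoImplicit false
set_option linter.unusedSectionVars false
set_option linter.unusedVariables false
set_option linter.style.haveILetI false
set_option synthInstance.maxHeartbeats 400000
set_option maxHeartbeats 1600000

open ModularCurve AlgebraicCurve HahnSeries IntermediateField Polynomial Module

noncomputable section

namespace Fermat.Agent.S18.CuspSemi80

open Fermat.Agent.S18.Spine33 Fermat.Agent.S18.Bridge28 Fermat.Agent.S18.BridgeKernel15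
open Fermat.Agent.S18.LevelInst29 Fermat.Agent.S18.GaussM29 Fermat.Agent.S18.LevelAsm29
open Fermat.Agent.S18.LevelFinal29
open Fermat.Agent.S20 Fermat.Agent.S20.T1 Fermat.Agent.S24

variable (A : ValuationSubring Kb) (M : ℕ) [NeZero M] {ℓ : ℕ} [Fact ℓ.Prime]
  (hA : A.LiesOverPrime ℓ) (hM : ¬ ℓ ∣ M)

/-- the lattice lemma for the concrete frame at level `M` -/
theorem latticeM : LatticeM A M (natCast_residueField_ne_zero A hA hM) :=
  LatticeInst56.lattice_field hA hM
    (OF' (frame A M (natCast_residueField_ne_zero A hA hM)) (modularFunctionFieldBar M)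
      (frame_F A M (natCast_residueField_ne_zero A hA hM)))
    (rhoF' (frame A M (natCast_residueField_ne_zero A hA hM)) (modularFunctionFieldBar M)
      (frame_F A M (natCast_residueField_ne_zero A hA hM)))
    (ker_rhoF' _ _ _) (rhoF'_incl _ _ _) (const_mem_OF' _ _ _) (rhoF'_const _ _ _)

/-- the genus inequality at a good level -/
theorem genusProp (hgood : GoodLevel ℓ M) :
    haveI := ValRing25.residueField_isAlgClosed A
    GenusProp M A (natCast_residueField_ne_zero A hA hM) := by
  haveI := ValRing25.residueField_isAlgClosed A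
  have hMk := natCast_residueField_ne_zero A hA hM
  -- the base level
  obtain ⟨M₀, hM₀, hdvd⟩ : ∃ M₀ : ℕ, (M₀ = 4 ∨ M₀ = 9) ∧ M₀ ∣ M := by
    rcases hgood with ⟨-, h⟩ | ⟨-, h⟩
    · exact ⟨4, Or.inl rfl, h⟩
    · exact ⟨9, Or.inr rfl, h⟩
  haveI : NeZero M₀ := ⟨by rcases hM₀ with rfl | rfl <;> norm_num⟩
  have hM₀k : (M₀ : kA A) ≠ 0 := DegreeBar14.natCast_ne_zero_of_dvd hMk hdvd
  exact genusProp_of_frame M₀ M A (frame A M hMk) (frame_F A M hMk) (hj_frame A M hMk)
    (ht_frame A M hMk) hMk (hrange_frame A M hMk) (degProp A M hMk) (latticeM A M hA hM) hM₀ hdvd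
    (DegreeBar14.degOver_eq (kA A) M₀ hM₀k)
    (CuspBaseFinal81.cuspCount_le (kA A) M₀ hM₀ hM₀k)

include hA hM in
/-- **`LevelData` at every good level prime to `ℓ`.** -/
theorem nonempty_levelData (hgood : GoodLevel ℓ M) : Nonempty (Level33.LevelData A M) :=
  nonempty_levelData_of_liesOver A M hA hM (genusProp A M hA hM hgood) (latticeM A M hA hM)

/-- **[LEVEL]** = plug P2 of `Spine33`. -/
theorem level : LevelStatement :=
  Level33.levelStatement_of_data fun M ℓ _ _ hM hgood A hA => nonempty_levelData A M hA hM hgood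

end Fermat.Agent.S18.CuspSemi80
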